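/-
S26 / block V : domination of local rings by valuation subrings of the function field.
-/
import Fermat.Agent.S26.B.Defs

set_option autoImplicit false

universe u

open CategoryTheory CategoryTheory.Limits AlgebraicGeometry NeronModelInfra GoodReductionJacobian

namespace Fermat.Agent.S26.V

/-- the valuation subring `O` of `K(T)` dominates the local ring of `T` at `x`
(`x` is a centre of `O`) -/
def Dominates {T : Scheme.{u}} [IsIntegral T] (O : ValuationSubring T.functionField) (x : T) :
    Prop :=
  (∀ a : T.presheaf.stalk x, toFF x a ∈ O) ∧
    ∀ a : T.presheaf.stalk x, ¬ IsUnit a → toFF x a ∈ O.nonunits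

end Fermat.Agent.S26.V
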