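/-
S26 / block V : definitions of the skeleton (group law morphisms, the interface `Lin` / `Sq`
between the Picard part V1-V4 and the valuative part V8-V11).
-/
import Fermat.Agent.S26.V.Dom
import Fermat.Agent.S26.G.Defs

set_option autoImplicit false

universe u

open CategoryTheory CategoryTheory.Limits AlgebraicGeometry NeronModelInfra GoodReductionJacobian

noncomputable section

namespace Fermat.Agent.S26.V

variable {K : Type u} [Field K] {A : Scheme.{u}} {f : A ⟶ SpK K}

/-- `K`-points of `A` -/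
abbrev KPt (f : A ⟶ SpK K) : Type u := SchemeHomOver (𝟙 (SpK K)) f

/-- the constant `T`-point with value `a` -/
def constPt (t : A ⟶ SpK K) {T : Scheme.{u}} (t' : T ⟶ SpK K) (a : KPt t) : SchemeHomOver t' t :=
  ⟨t' ≫ a.1, by rw [Category.assoc, a.2, Category.comp_id]⟩

/-- translation by the `K`-point `a` -/
def trans (L : RelativeGroupLaw K f) (a : KPt f) : A ⟶ A :=
  (L.mul f RelativeGroupLaw.idPoint (constPt f f a)).1

/-- the inverse morphism -/
def neg (L : RelativeGroupLaw K f) : A ⟶ A := (L.inv f RelativeGroupLaw.idPoint).1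

variable [IsIntegral A] {L : RelativeGroupLaw K f}

/-- the local equation of `E` at `s(x')`, pulled back to `K(X)` -/
def sθ (X : CoverData K f L) (E : ECD A) (x' : X.X) : X.X.functionField :=
  X.σ (toFF (X.s.1 x') (E.θ (X.s.1 x')))

/-- the degree `[K(X) : σ K(A)]` -/
def cdeg (X : CoverData K f L) : ℕ :=
  @Module.finrank A.functionField X.X.functionField _ _ X.σ.toAlgebra.toModule

/-- `(n^k s)^* D ∼ n^(2k) s^* D` -/
def LinProp (X : CoverData K f L) (n : ℕ) (D : ECD A) : Prop :=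
  ∀ (k : ℕ) (Dk : ECD A), ECD.IsPull (L.schemeNsmul (n ^ k)) D Dk →
    ∃ h : X.X.functionField, h ≠ 0 ∧
      ∀ x' : X.X, IsUnitAt x' (h * sθ X Dk x' / sθ X D x' ^ (n ^ (2 * k)))

/-- `(s+a)^* D + (s-a)^* D ∼ 2 s^* D` -/
def SqProp (X : CoverData K f L) (D : ECD A) : Prop :=
  ∀ (a : KPt f) (Da Dma : ECD A), ECD.IsPull (trans L a) D Da →
    ECD.IsPull (trans L (L.inv (𝟙 (SpK K)) a)) D Dma →
    ∃ h : X.X.functionField, h ≠ 0 ∧
      ∀ x' : X.X, IsUnitAt x' (h * (sθ X Da x' * sθ X Dma x') / sθ X D x' ^ 2)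

/-- `g` is, valuatively, a generator of `O(2 d D)` off the translates `D ± a` -/
def IsGa (d : ℕ) (D Da Dma : ECD A) (g : A.functionField) : Prop :=
  g ≠ 0 ∧ ∀ (O : ValuationSubring A.functionField), (∀ c : K, constFF K f c ∈ O) →
    ∀ x : A, Dominates O x →
      G.IsValUnit O (g * toFF x (D.θ x) ^ (2 * d) / (toFF x (Da.θ x) * toFF x (Dma.θ x)) ^ d)

end Fermat.Agent.S26.V
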