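/-
S26 / block V : the group law morphisms and their function field maps.
-/
import Fermat.Agent.S26.V.Sys
import Fermat.Agent.S26.V.Grp.Fn
import Fermat.Agent.S26.V.Grp.Pow

set_option autoImplicit false

universe u

open CategoryTheory CategoryTheory.Limits AlgebraicGeometry NeronModelInfra GoodReductionJacobian

namespace Fermat.Agent.S26.V

variable {K : Type u} [Field K] {A : Scheme.{u}} {f : A ⟶ SpK K} (L : RelativeGroupLaw K f)

theorem trans_over (a : KPt f) : trans L a ≫ f = f :=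
  (L.mul f RelativeGroupLaw.idPoint (constPt f f a)).2

theorem neg_over : neg L ≫ f = f := (L.inv f RelativeGroupLaw.idPoint).2

theorem grp_comp_idPoint {T : Scheme.{u}} (t : T ⟶ SpK K) (x : SchemeHomOver t f) :
    schemeHomOverComp x.1 x.2 (RelativeGroupLaw.idPoint : SchemeHomOver f f) = x :=
  Subtype.ext (Category.comp_id _)

theorem grp_comp_constPt {T : Scheme.{u}} (t : T ⟶ SpK K) (x : SchemeHomOver t f) (a : KPt f) :
    schemeHomOverComp x.1 x.2 (constPt f f a) = constPt f t a :=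
  Subtype.ext (by
    show x.1 ≫ (f ≫ a.1) = t ≫ a.1
    rw [← Category.assoc, x.2])

theorem grp_constPt_eq {T : Scheme.{u}} (t : T ⟶ SpK K) (a : KPt f) :
    constPt f t a = schemeHomOverComp t (Category.comp_id t) a := rfl

/-- inverses are natural -/
theorem grp_inv_natural {T T' : Scheme.{u}} (t : T ⟶ SpK K) (t' : T' ⟶ SpK K) (ψ : T' ⟶ T)
    (hψ : ψ ≫ t = t') (x : SchemeHomOver t f) :
    schemeHomOverComp ψ hψ (L.inv t x) = L.inv t' (schemeHomOverComp ψ hψ x) := by
  have h : L.mul t' (schemeHomOverComp ψ hψ (L.inv t x)) (schemeHomOverComp ψ hψ x) = L.one t' := by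
    rw [← L.mul_natural, L.inv_mul_cancel, L.one_natural]
  let _ := L.pointGroup t'
  exact eq_inv_of_mul_eq_one_left h

theorem grp_constPt_inv {T : Scheme.{u}} (t : T ⟶ SpK K) (a : KPt f) :
    constPt f t (L.inv (𝟙 (SpK K)) a) = L.inv t (constPt f t a) := by
  rw [grp_constPt_eq, grp_constPt_eq, grp_inv_natural]

/-- `x + a = t_a ∘ x` -/
theorem comp_trans {T : Scheme.{u}} (t : T ⟶ SpK K) (x : SchemeHomOver t f) (a : KPt f) :
    x.1 ≫ trans L a = (L.mul t x (constPt f t a)).1 := by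
  have h := congrArg Subtype.val
    (L.mul_natural f t x.1 x.2 RelativeGroupLaw.idPoint (constPt f f a))
  rw [grp_comp_idPoint, grp_comp_constPt] at h
  exact h

/-- `-x = [-1] ∘ x` -/
theorem comp_neg {T : Scheme.{u}} (t : T ⟶ SpK K) (x : SchemeHomOver t f) :
    x.1 ≫ neg L = (L.inv t x).1 := by
  have h := congrArg Subtype.val (grp_inv_natural L f t x.1 x.2 RelativeGroupLaw.idPoint)
  rw [grp_comp_idPoint] at h
  exact h

/-- `m x = [m] ∘ x` -/
theorem comp_nsmul {T : Scheme.{u}} (t : T ⟶ SpK K) (x : SchemeHomOver t f) (m : ℕ) :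
    x.1 ≫ L.schemeNsmul m = (L.nsmul t m x).1 := by
  have h := congrArg Subtype.val (L.nsmul_natural f t x.1 x.2 m RelativeGroupLaw.idPoint)
  rw [grp_comp_idPoint] at h
  exact h

/-- translations are isomorphisms -/
theorem trans_trans_inv (a : KPt f) : trans L a ≫ trans L (L.inv (𝟙 (SpK K)) a) = 𝟙 A := by
  have h := comp_trans L f (L.mul f RelativeGroupLaw.idPoint (constPt f f a))
    (L.inv (𝟙 (SpK K)) a)
  rw [grp_constPt_inv, L.mul_assoc, L.mul_inv_cancel, L.mul_one] at h
  exact h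

theorem trans_inv_trans (a : KPt f) : trans L (L.inv (𝟙 (SpK K)) a) ≫ trans L a = 𝟙 A := by
  have h := comp_trans L f (L.mul f RelativeGroupLaw.idPoint (constPt f f (L.inv (𝟙 (SpK K)) a))) a
  have h2 : L.mul f (L.mul f RelativeGroupLaw.idPoint (constPt f f (L.inv (𝟙 (SpK K)) a)))
      (constPt f f a) = RelativeGroupLaw.idPoint := by
    rw [grp_constPt_inv, L.mul_assoc, L.inv_mul_cancel, L.mul_one]
  rw [h2] at h
  exact h

theorem neg_neg : neg L ≫ neg L = 𝟙 A := by
  have h := comp_neg L f (L.inv f RelativeGroupLaw.idPoint)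
  have h2 : L.inv f (L.inv f RelativeGroupLaw.idPoint) = RelativeGroupLaw.idPoint := by
    let _ := L.pointGroup f
    exact inv_inv (RelativeGroupLaw.idPoint : SchemeHomOver f f)
  rw [h2] at h
  exact h

/-- an isomorphism of integral schemes has a function field map -/
theorem exists_isFnMap_of_comp_eq_id {X Y : Scheme.{u}} [IsIntegral X] [IsIntegral Y] (φ : X ⟶ Y)
    (φ' : Y ⟶ X) (h : φ ≫ φ' = 𝟙 X) (h' : φ' ≫ φ = 𝟙 Y) :
    ∃ ψ : Y.functionField →+* X.functionField, IsFnMap φ ψ :=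
  Fn.exists_isFnMap_of_comp_eq_id φ φ' h h'

/-- function field maps compose -/
theorem IsFnMap.comp {X Y Z : Scheme.{u}} [IsIntegral X] [IsIntegral Y] [IsIntegral Z]
    {φ : X ⟶ Y} {φ' : Y ⟶ Z} {ψ : Y.functionField →+* X.functionField}
    {ψ' : Z.functionField →+* Y.functionField} (h : IsFnMap φ ψ) (h' : IsFnMap φ' ψ') :
    IsFnMap (φ ≫ φ') (ψ.comp ψ') :=
  Fn.isFnMap_comp h h'

/-- the function field map of `[n^k]` -/
theorem isFnMap_nsmul_pow [IsIntegral A] (hc : L.IsCommutative) (n : ℕ) (I : IsogData K f L n)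
    (k : ℕ) : IsFnMap (L.schemeNsmul (n ^ k)) (I.ψ ^ k) :=
  Pow_isFnMap_nsmul_pow L n I k

/-- pull-back of effective Cartier data along a morphism with a function field map -/
theorem exists_isPull {T' T : Scheme.{u}} [IsIntegral T'] [IsIntegral T] (φ : T' ⟶ T)
    (ψ : T.functionField →+* T'.functionField) (h : IsFnMap φ ψ) (D : ECD T) :
    ∃ D' : ECD T', ECD.IsPull φ D D' :=
  Fn.exists_isPull φ ψ h D

/-- the local equation of a pull-back -/
theorem toFF_isPull {T' T : Scheme.{u}} [IsIntegral T'] [IsIntegral T] (φ : T' ⟶ T)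
    (ψ : T.functionField →+* T'.functionField) (h : IsFnMap φ ψ) (D : ECD T) (D' : ECD T')
    (hD : ECD.IsPull φ D D') (x' : T') :
    toFF x' (D'.θ x') = ψ (toFF (φ x') (D.θ (φ x'))) := by
  rw [hD x', h x']

end Fermat.Agent.S26.V
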