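/-
S26 / block V, node V9 : finitely many translates of the support have empty intersection.
-/
import Fermat.Agent.S26.V.Sys
import Fermat.Agent.S26.V.Grp

set_option autoImplicit false

universe u

open CategoryTheory CategoryTheory.Limits AlgebraicGeometry NeronModelInfra GoodReductionJacobian

namespace Fermat.Agent.S26.V

/-- the locus where the local equation is a unit -/
def Cover.unitLocus {T : Scheme.{u}} [IsIntegral T] (D : ECD T) : Set T := {x | IsUnit (D.θ x)}

theorem Cover.isUnit_of_isUnitAt {T : Scheme.{u}} [IsIntegral T] {x : T} {a : T.presheaf.stalk x}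
    (h : IsUnitAt x (toFF x a)) : IsUnit a := by
  obtain ⟨b, hb, hab⟩ := h
  have : b = a := IsFractionRing.injective (T.presheaf.stalk x) T.functionField hab
  exact this ▸ hb

theorem Cover.isOpen_unitLocus {T : Scheme.{u}} [IsIntegral T] (D : ECD T) :
    IsOpen (Cover.unitLocus D) := by
  rw [isOpen_iff_forall_mem_open]
  intro x hx
  obtain ⟨U, hxU, hU⟩ := D.coh x
  obtain ⟨V, hxV, s, hs⟩ := T.presheaf.exists_germ_eq (D.θ x)
  have hxB : x ∈ T.basicOpen s := by
    rw [Scheme.mem_basicOpen T s x hxV, hs]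
    exact hx
  refine ⟨(U ⊓ T.basicOpen s : T.Opens), ?_, (U ⊓ T.basicOpen s).isOpen, ⟨hxU, hxB⟩⟩
  rintro y ⟨hyU, hyB⟩
  have hyV : y ∈ V := T.basicOpen_le s hyB
  have hne : Nonempty V := ⟨⟨x, hxV⟩⟩
  have h1 : toFF x (D.θ x) = toFF y (T.presheaf.germ V y hyV s) := by
    rw [← hs]
    simp only [toFF, Scheme.algebraMap_germ_eq_germToFunctionField]
  have h2 : IsUnitAt y (toFF x (D.θ x)) :=
    ⟨_, (Scheme.mem_basicOpen T s y hyV).1 hyB, h1.symm⟩
  have h3 := (hU y hyU).inv.mul h2
  have hx0 : toFF x (D.θ x) ≠ 0 := (ECD.toCD D).ne x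
  have h4 : (toFF x (D.θ x) / toFF y (D.θ y))⁻¹ * toFF x (D.θ x) = toFF y (D.θ y) := by
    field_simp
  rw [h4] at h3
  exact Cover.isUnit_of_isUnitAt h3

theorem Cover.genericPoint_mem_unitLocus {T : Scheme.{u}} [IsIntegral T] (D : ECD T) :
    genericPoint T ∈ Cover.unitLocus D := by
  have : IsUnit (M := T.functionField) (D.θ (genericPoint T)) := (D.ne _).isUnit
  exact this

/-- the constant `Spec K`-point with value `a` is `a` -/
theorem Cover.constPt_id {K : Type u} [Field K] {A : Scheme.{u}} (f : A ⟶ SpK K) (a : KPt f) :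
    constPt f (𝟙 (SpK K)) a = a := Subtype.ext (Category.id_comp _)

/-- `t_a (b) = t_b (a)` -/
theorem Cover.comp_trans_comm {K : Type u} [Field K] {A : Scheme.{u}} {f : A ⟶ SpK K}
    (L : RelativeGroupLaw K f) (hc : L.IsCommutative) (a b : KPt f) :
    b.1 ≫ trans L a = a.1 ≫ trans L b := by
  rw [comp_trans L (𝟙 (SpK K)) b a, comp_trans L (𝟙 (SpK K)) a b, Cover.constPt_id,
    Cover.constPt_id, hc]

/-- every closed point is in some `W_a` -/
theorem Cover.exists_of_isClosed {K : Type u} [Field K] [IsAlgClosed K] {A : Scheme.{u}}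
    (f : A ⟶ SpK K) (L : RelativeGroupLaw K f) (hc : L.IsCommutative) [LocallyOfFiniteType f]
    [IsIntegral A] (D : ECD A) (x : A) (hx : IsClosed {x}) :
    ∃ a : KPt f, trans L a x ∈ Cover.unitLocus D ∧
      trans L (L.inv (𝟙 (SpK K)) a) x ∈ Cover.unitLocus D := by
  have hJ : JacobsonSpace A := LocallyOfFiniteType.jacobsonSpace f
  have hU₀ := Cover.isOpen_unitLocus D
  let b : KPt f := ⟨pointOfClosedPoint f x hx, pointOfClosedPoint_comp f x hx⟩
  have hb : ∀ pt, b.1 pt = x := fun pt => pointOfClosedPoint_apply f x hx pt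
  let η₁ : A := trans L (L.inv (𝟙 (SpK K)) b) (genericPoint A)
  have h1 : trans L b η₁ = genericPoint A := by
    show trans L b (trans L (L.inv (𝟙 (SpK K)) b) (genericPoint A)) = _
    rw [← Scheme.Hom.comp_apply, trans_inv_trans]
    rfl
  have h2 : (neg L ≫ trans L b) (neg L η₁) = genericPoint A := by
    rw [← Scheme.Hom.comp_apply, ← Category.assoc, neg_neg, Category.id_comp, h1]
  have hne : ((trans L b) ⁻¹' Cover.unitLocus D ∩
      (neg L ≫ trans L b) ⁻¹' Cover.unitLocus D).Nonempty := by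
    refine nonempty_preirreducible_inter (hU₀.preimage (trans L b).continuous)
      (hU₀.preimage (neg L ≫ trans L b).continuous) ⟨η₁, ?_⟩ ⟨neg L η₁, ?_⟩
    · rw [Set.mem_preimage, h1]
      exact Cover.genericPoint_mem_unitLocus D
    · rw [Set.mem_preimage, h2]
      exact Cover.genericPoint_mem_unitLocus D
  obtain ⟨y, ⟨hy1, hy2⟩, hyc⟩ := nonempty_inter_closedPoints hne
    ((hU₀.preimage (trans L b).continuous).inter
      (hU₀.preimage (neg L ≫ trans L b).continuous)).isLocallyClosed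
  let a : KPt f := ⟨pointOfClosedPoint f y hyc, pointOfClosedPoint_comp f y hyc⟩
  have ha : ∀ pt, a.1 pt = y := fun pt => pointOfClosedPoint_apply f y hyc pt
  let pt : SpK K := IsLocalRing.closedPoint K
  refine ⟨a, ?_, ?_⟩
  · have : trans L a x = trans L b y := by
      rw [← hb pt, ← ha pt, ← Scheme.Hom.comp_apply, ← Scheme.Hom.comp_apply,
        Cover.comp_trans_comm L hc]
    rw [this]
    exact hy1
  · have : trans L (L.inv (𝟙 (SpK K)) a) x = (neg L ≫ trans L b) y := by
      rw [← hb pt, ← ha pt, ← Scheme.Hom.comp_apply, ← Scheme.Hom.comp_apply,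
        Cover.comp_trans_comm L hc, ← Category.assoc, comp_neg L (𝟙 (SpK K)) a]
    rw [this]
    exact hy2

/-- **V9.** -/
theorem exists_finset_isUnit {K : Type u} [Field K] [IsAlgClosed K] {A : Scheme.{u}}
    (f : A ⟶ SpK K) (L : RelativeGroupLaw K f) (hc : L.IsCommutative)
    (hA : AbelianSchemePropertyBundle K f) [IsIntegral A] (D : ECD A) :
    ∃ S : Finset (KPt f), ∀ x : A, ∃ a ∈ S,
      IsUnit (D.θ (trans L a x)) ∧ IsUnit (D.θ (trans L (L.inv (𝟙 (SpK K)) a) x)) := by
  have := hA.proper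
  have hJ : JacobsonSpace A := LocallyOfFiniteType.jacobsonSpace f
  have hcomp : CompactSpace A := QuasiCompact.compactSpace_of_compactSpace f
  have hU₀ := Cover.isOpen_unitLocus D
  let W : KPt f → Set A := fun a =>
    (trans L a) ⁻¹' Cover.unitLocus D ∩ (trans L (L.inv (𝟙 (SpK K)) a)) ⁻¹' Cover.unitLocus D
  have hWo : ∀ a, IsOpen (W a) := fun a =>
    (hU₀.preimage (trans L a).continuous).inter (hU₀.preimage (trans L _).continuous)
  have hcov : ∀ x, ∃ a, x ∈ W a := by
    by_contra hne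
    push Not at hne
    obtain ⟨x, hx⟩ := hne
    have hZ : IsClosed (⋃ a, W a)ᶜ := (isOpen_iUnion hWo).isClosed_compl
    obtain ⟨y, hy, hyc⟩ := nonempty_inter_closedPoints (Z := (⋃ a, W a)ᶜ)
      ⟨x, by simpa using hx⟩ hZ.isLocallyClosed
    obtain ⟨a, ha⟩ := Cover.exists_of_isClosed f L hc D y hyc
    exact hy (Set.mem_iUnion.2 ⟨a, ha⟩)
  obtain ⟨S, hS⟩ := isCompact_univ.elim_finite_subcover W hWo
    (fun x _ => Set.mem_iUnion.2 (hcov x))
  refine ⟨S, fun x => ?_⟩
  have := hS (Set.mem_univ x)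
  simp only [Set.mem_iUnion] at this
  obtain ⟨a, ha, hx⟩ := this
  exact ⟨a, ha, hx.1, hx.2⟩

end Fermat.Agent.S26.V
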