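/-
S26 / block V, nodes V5, V6 : centres of valuation subrings (existence, uniqueness, functoriality).
(proofs: helper68.)  V5 = existence part of the valuative criterion, V6 = uniqueness part.
-/
import Fermat.Agent.S26.V.Dom

set_option autoImplicit false

universe u

open CategoryTheory CategoryTheory.Limits AlgebraicGeometry NeronModelInfra GoodReductionJacobian

namespace Fermat.Agent.S26.V

variable {K : Type u} [Field K]

/-- a morphism to `Spec K` in terms of global sections -/
theorem centre_eq_toSpecΓ {T : Scheme.{u}} (t : T ⟶ SpK K) :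
    t = T.toSpecΓ ≫ Spec.map (t.appTop) ≫ Spec.map (Scheme.ΓSpecIso (CommRingCat.of K)).inv := by
  have h := Scheme.toSpecΓ_naturality t
  rw [← SpecMap_ΓSpecIso_hom] at h
  rw [← Category.assoc, ← h, Category.assoc, ← Spec.map_comp, Iso.inv_hom_id, Spec.map_id,
    Category.comp_id]

theorem centre_fromSpecStalk_comp {T : Scheme.{u}} [IsIntegral T] (t : T ⟶ SpK K) :
    T.fromSpecStalk (genericPoint T) ≫ t = Spec.map (CommRingCat.ofHom (constFF K t)) := by
  conv_lhs => rw [centre_eq_toSpecΓ t]
  rw [Scheme.fromSpecStalk_toSpecΓ_assoc, ← Spec.map_comp, ← Spec.map_comp]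
  rfl

theorem centre_toFF {T : Scheme.{u}} [IsIntegral T] (x : T) :
    CommRingCat.ofHom (toFF x) =
      T.presheaf.stalkSpecializes ((genericPoint_spec T).specializes trivial) := rfl

/-- a local homomorphism `O_{T,x} → O` compatible with the inclusions in `K(T)` shows that `O`
dominates `x`. -/
theorem centre_dominates_of_hom {T : Scheme.{u}} [IsIntegral T]
    (O : ValuationSubring T.functionField) (x : T)
    (ρ : T.presheaf.stalk x →+* O) [IsLocalHom ρ]
    (h : ∀ a, ((ρ a : O) : T.functionField) = toFF x a) : Dominates O x := by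
  refine ⟨fun a => h a ▸ (ρ a).2, fun a ha => ?_⟩
  rw [← h a, ValuationSubring.coe_mem_nonunits_iff, IsLocalRing.mem_maximalIdeal, mem_nonunits_iff]
  exact fun hu => ha ((isUnit_map_iff ρ a).1 hu)

/-- **V5.** existence of a centre on a proper `K`-scheme. -/
theorem exists_dominates {T : Scheme.{u}} [IsIntegral T] (t : T ⟶ SpK K) [IsProper t]
    (O : ValuationSubring T.functionField) (hO : ∀ a : K, constFF K t a ∈ O) :
    ∃ x : T, Dominates O x := by
  let κ : K →+* O := (constFF K t).codRestrict O.toSubring hO
  have hex : ValuativeCriterion.Existence t := by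
    have h : UniversallyClosed t := inferInstance
    rw [UniversallyClosed.eq_valuativeCriterion] at h
    exact h.1
  have w : T.fromSpecStalk (genericPoint T) ≫ t =
      Spec.map (CommRingCat.ofHom (algebraMap O T.functionField)) ≫
        Spec.map (CommRingCat.ofHom κ) := by
    rw [centre_fromSpecStalk_comp, ← Spec.map_comp]
    rfl
  obtain ⟨l, hl₁, hl₂⟩ := (hex { R := O, K := T.functionField, commSq := ⟨w⟩, .. }).exists_lift
  dsimp only at hl₁ hl₂
  refine ⟨l (IsLocalRing.closedPoint O), ?_⟩
  have hmono : Scheme.stalkClosedPointTo l ≫ CommRingCat.ofHom (algebraMap O T.functionField) =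
      T.presheaf.stalkSpecializes ((genericPoint_spec T).specializes trivial) := by
    apply Spec.map_injective
    rw [← cancel_mono (T.fromSpecStalk (l (IsLocalRing.closedPoint O))),
      Scheme.SpecMap_stalkSpecializes_fromSpecStalk, Spec.map_comp, Category.assoc,
      Scheme.Spec_stalkClosedPointTo_fromSpecStalk, hl₁]
  refine centre_dominates_of_hom O _ (Scheme.stalkClosedPointTo l).hom fun a => ?_
  exact congrArg (fun f => f.hom a) hmono

/-- the homomorphism `O_{T,x} → O` attached to a centre -/
noncomputable def centreHom {T : Scheme.{u}} [IsIntegral T] {O : ValuationSubring T.functionField}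
    {x : T} (hx : Dominates O x) : T.presheaf.stalk x →+* O :=
  (toFF x).codRestrict O.toSubring hx.1

theorem centreHom_isLocalHom {T : Scheme.{u}} [IsIntegral T]
    {O : ValuationSubring T.functionField} {x : T} (hx : Dominates O x) :
    IsLocalHom (centreHom hx) := by
  refine ⟨fun a ha => ?_⟩
  by_contra hna
  have h1 := hx.2 a hna
  have h2 : ((centreHom hx a : O) : T.functionField) ∈ O.nonunits := h1
  rw [ValuationSubring.coe_mem_nonunits_iff, IsLocalRing.mem_maximalIdeal, mem_nonunits_iff] at h2
  exact h2 ha

/-- the morphism `Spec O → T` attached to a centre -/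
noncomputable def centreMap {T : Scheme.{u}} [IsIntegral T] {O : ValuationSubring T.functionField}
    {x : T} (hx : Dominates O x) : Spec (CommRingCat.of O) ⟶ T :=
  Spec.map (CommRingCat.ofHom (centreHom hx)) ≫ T.fromSpecStalk x

theorem centreMap_closedPoint {T : Scheme.{u}} [IsIntegral T]
    {O : ValuationSubring T.functionField} {x : T} (hx : Dominates O x) :
    centreMap hx (IsLocalRing.closedPoint O) = x := by
  have := centreHom_isLocalHom hx
  have h : Spec.map (CommRingCat.ofHom (centreHom hx)) (IsLocalRing.closedPoint O) =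
      IsLocalRing.closedPoint (T.presheaf.stalk x) :=
    IsLocalRing.comap_closedPoint (centreHom hx)
  exact (congrArg (T.fromSpecStalk x) h).trans Scheme.fromSpecStalk_closedPoint

theorem centreMap_generic {T : Scheme.{u}} [IsIntegral T]
    {O : ValuationSubring T.functionField} {x : T} (hx : Dominates O x) :
    Spec.map (CommRingCat.ofHom (algebraMap O T.functionField)) ≫ centreMap hx =
      T.fromSpecStalk (genericPoint T) := by
  rw [centreMap, ← Spec.map_comp_assoc,
    ← Scheme.SpecMap_stalkSpecializes_fromSpecStalk ((genericPoint_spec T).specializes trivial)]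
  rfl

/-- **V6.** uniqueness of the centre on a separated `K`-scheme. -/
theorem dominates_unique {T : Scheme.{u}} [IsIntegral T] (t : T ⟶ SpK K) [IsSeparated t]
    (O : ValuationSubring T.functionField) (x y : T) (hx : Dominates O x) (hy : Dominates O y) :
    x = y := by
  -- the two structure morphisms `Spec O → Spec K` agree
  have hbase : centreMap hx ≫ t = centreMap hy ≫ t := by
    obtain ⟨a, ha⟩ := Spec.map_surjective (centreMap hx ≫ t)
    obtain ⟨b, hb⟩ := Spec.map_surjective (centreMap hy ≫ t)
    have h1 : Spec.map (CommRingCat.ofHom (algebraMap O T.functionField)) ≫ Spec.map a =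
        Spec.map (CommRingCat.ofHom (algebraMap O T.functionField)) ≫ Spec.map b := by
      rw [ha, hb, ← Category.assoc, ← Category.assoc, centreMap_generic, centreMap_generic]
    rw [← Spec.map_comp, ← Spec.map_comp] at h1
    have h2 := Spec.map_injective h1
    have h3 : a = b := by
      ext c
      have h4 := congrArg (fun f => f.hom c) h2
      exact h4
    rw [← ha, ← hb, h3]
  have w : T.fromSpecStalk (genericPoint T) ≫ t =
      Spec.map (CommRingCat.ofHom (algebraMap O T.functionField)) ≫ (centreMap hx ≫ t) := by
    rw [← Category.assoc, centreMap_generic]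
  have huniq := IsSeparated.valuativeCriterion t
    { R := O, K := T.functionField, commSq := ⟨w⟩, .. }
  have h12 := @Subsingleton.elim _ huniq ⟨centreMap hx, centreMap_generic hx, rfl⟩
    ⟨centreMap hy, centreMap_generic hy, hbase.symm⟩
  have h : centreMap hx = centreMap hy := congrArg CommSq.LiftStruct.l h12
  rw [← centreMap_closedPoint hx, ← centreMap_closedPoint hy, h]

theorem centre_mem_nonunits_comap {F F' : Type*} [Field F] [Field F'] (O : ValuationSubring F)
    (ψ : F' →+* F) (z : F') : z ∈ (O.comap ψ).nonunits ↔ ψ z ∈ O.nonunits := by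
  rw [ValuationSubring.mem_nonunits_iff_or, ValuationSubring.mem_nonunits_iff_or,
    ValuationSubring.mem_comap, map_inv₀, map_eq_zero]

/-- functoriality of centres. -/
theorem dominates_comap {X Y : Scheme.{u}} [IsIntegral X] [IsIntegral Y] (φ : X ⟶ Y)
    (ψ : Y.functionField →+* X.functionField) (h : IsFnMap φ ψ)
    (O : ValuationSubring X.functionField) (x : X) (hx : Dominates O x) :
    Dominates (O.comap ψ) (φ x) := by
  refine ⟨fun a => ?_, fun a ha => ?_⟩
  · change ψ (toFF (φ x) a) ∈ O
    rw [h x a]
    exact hx.1 _
  · rw [centre_mem_nonunits_comap, h x a]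
    refine hx.2 _ fun hu => ha ?_
    exact (isUnit_map_iff (φ.stalkMap x).hom a).1 hu

/-- units at the centre are units of the valuation ring -/
theorem Dominates.isUnitAt {T : Scheme.{u}} [IsIntegral T] {O : ValuationSubring T.functionField}
    {x : T} (hx : Dominates O x) {u : T.functionField} (hu : IsUnitAt x u) :
    u ∈ O ∧ u⁻¹ ∈ O ∧ u ≠ 0 := by
  obtain ⟨b, -, hb⟩ := hu.inv
  obtain ⟨a, ha, rfl⟩ := hu
  refine ⟨hx.1 a, hb ▸ hx.1 b, (ha.map (toFF x)).ne_zero⟩

end Fermat.Agent.S26.V
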