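/-
S26 / block V, node V11 : from the valuative generators on `A` and the linear relation to (c).
-/
import Fermat.Agent.S26.V.Sys
import Fermat.Agent.S26.V.Centre
import Fermat.Agent.S26.V.Grp
import Fermat.Agent.S26.P.Const

set_option autoImplicit false

universe u

open CategoryTheory CategoryTheory.Limits AlgebraicGeometry NeronModelInfra GoodReductionJacobian

namespace Fermat.Agent.S26.V

/-- transfer of a valuative generator along a field homomorphism -/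
theorem final_transfer {F F' : Type u} [Field F] [Field F'] (τ : F →+* F')
    (O : ValuationSubring F') {V : Set F} {ϑ : F} (h : G.IsValGen (O.comap τ) V ϑ) :
    G.IsValGen O (τ '' V) (τ ϑ) := by
  obtain ⟨h0, hall, w, hw, hw0, hwO⟩ := h
  refine ⟨(map_ne_zero τ).2 h0, ?_, τ w, ⟨w, hw, rfl⟩, (map_ne_zero τ).2 hw0, ?_⟩
  · rintro _ ⟨v, hv, rfl⟩
    rw [← map_div₀]
    exact hall v hv
  · rw [← map_div₀]
    exact hwO

/-- **V11.** -/
theorem final {K : Type u} [Field K] {A : Scheme.{u}} (f : A ⟶ SpK K)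
    (L : RelativeGroupLaw K f) (hc : L.IsCommutative) [IsIntegral A] (X : CoverData K f L)
    (n : ℕ) (I : IsogData K f L n) (d : ℕ) (D : ECD A) (hlin : LinProp X n D)
    (V : Set A.functionField)
    (hV : ∀ (O : ValuationSubring A.functionField), (∀ c : K, constFF K f c ∈ O) → ∀ x : A,
      Dominates O x → G.IsValGen O V (toFF x (D.θ x) ^ (2 * d))⁻¹) (k : ℕ) :
    ∃ h : X.X.functionField, h ≠ 0 ∧
      ∀ O : ValuationSubring X.X.functionField, (∀ c : K, constFF K X.x c ∈ O) →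
      ∃ ϑ ϑ' : X.X.functionField, G.IsValGen O (X.σ '' V) ϑ ∧
        G.IsValGen O ((fun v => X.σ (I.ψ^[k] v)) '' V) ϑ' ∧
        G.IsValUnit O (ϑ' / (h * ϑ ^ (n ^ (2 * k)))) := by
  have hfn : IsFnMap (L.schemeNsmul (n ^ k)) (I.ψ ^ k) := isFnMap_nsmul_pow L hc n I k
  obtain ⟨Dk, hDk⟩ := exists_isPull (L.schemeNsmul (n ^ k)) (I.ψ ^ k) hfn D
  obtain ⟨h0, h0ne, hu⟩ := hlin k Dk hDk
  refine ⟨h0 ^ (2 * d), pow_ne_zero _ h0ne, fun O hO => ?_⟩
  obtain ⟨x', hx'⟩ := exists_dominates X.x O hO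
  -- the first valuation ring
  have hy : Dominates (O.comap X.σ) (X.s.1 x') := dominates_comap X.s.1 X.σ X.isFn O x' hx'
  have hc1 : ∀ c : K, constFF K f c ∈ O.comap X.σ := by
    intro c
    change X.σ (constFF K f c) ∈ O
    rw [P.isFnMap_constFF' X.x f X.s.1 X.s.2 X.σ X.isFn c]
    exact hO c
  have g1 := final_transfer X.σ O (hV _ hc1 _ hy)
  -- the second valuation ring
  have hz : Dominates ((O.comap X.σ).comap (I.ψ ^ k)) (L.schemeNsmul (n ^ k) (X.s.1 x')) :=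
    dominates_comap (L.schemeNsmul (n ^ k)) (I.ψ ^ k) hfn _ _ hy
  have hc2 : ∀ c : K, constFF K f c ∈ (O.comap X.σ).comap (I.ψ ^ k) := by
    intro c
    change (I.ψ ^ k) (constFF K f c) ∈ O.comap X.σ
    rw [P.isFnMap_constFF' f f _ (L.schemeNsmul_over (n ^ k)) (I.ψ ^ k) hfn c]
    exact hc1 c
  have g2 := final_transfer X.σ O (final_transfer (I.ψ ^ k) _ (hV _ hc2 _ hz))
  rw [Set.image_image] at g2
  have hset : (fun v => X.σ ((I.ψ ^ k) v)) '' V = (fun v => X.σ (I.ψ^[k] v)) '' V := by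
    refine Set.image_congr fun v _ => ?_
    rw [RingHom.coe_pow]
  rw [hset] at g2
  refine ⟨_, _, g1, g2, ?_⟩
  -- the unit
  have e2 : X.σ ((I.ψ ^ k) (toFF (L.schemeNsmul (n ^ k) (X.s.1 x'))
      (D.θ (L.schemeNsmul (n ^ k) (X.s.1 x'))))) = sθ X Dk x' := by
    rw [sθ, toFF_isPull (L.schemeNsmul (n ^ k)) (I.ψ ^ k) hfn D Dk hDk (X.s.1 x')]
  have hD0 : sθ X D x' ≠ 0 := (map_ne_zero X.σ).2 (D.toCD.ne _)
  have hDk0 : sθ X Dk x' ≠ 0 := (map_ne_zero X.σ).2 (Dk.toCD.ne _)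
  obtain ⟨u1, u2, u3⟩ := hx'.isUnitAt (hu x')
  have key : X.σ ((I.ψ ^ k) (toFF (L.schemeNsmul (n ^ k) (X.s.1 x'))
        (D.θ (L.schemeNsmul (n ^ k) (X.s.1 x'))) ^ (2 * d))⁻¹) /
      (h0 ^ (2 * d) * X.σ (toFF (X.s.1 x') (D.θ (X.s.1 x')) ^ (2 * d))⁻¹ ^ (n ^ (2 * k))) =
      ((h0 * sθ X Dk x' / sθ X D x' ^ (n ^ (2 * k)))⁻¹) ^ (2 * d) := by
    rw [map_inv₀, map_inv₀, map_inv₀, map_pow, map_pow, map_pow, e2]
    change (sθ X Dk x' ^ (2 * d))⁻¹ / (h0 ^ (2 * d) * (sθ X D x' ^ (2 * d))⁻¹ ^ (n ^ (2 * k))) = _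
    rw [inv_pow, inv_div, div_pow, mul_pow, ← pow_mul, ← pow_mul, mul_comm (n ^ (2 * k)) (2 * d)]
    have hB : sθ X D x' ^ (2 * d * n ^ (2 * k)) ≠ 0 := pow_ne_zero _ hD0
    have hA : sθ X Dk x' ^ (2 * d) ≠ 0 := pow_ne_zero _ hDk0
    have hH : h0 ^ (2 * d) ≠ 0 := pow_ne_zero _ h0ne
    generalize sθ X D x' ^ (2 * d * n ^ (2 * k)) = B at hB ⊢
    generalize sθ X Dk x' ^ (2 * d) = A' at hA ⊢
    generalize h0 ^ (2 * d) = H at hH ⊢
    field_simp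
  rw [key]
  refine ⟨pow_mem u2 _, ?_, pow_ne_zero _ (inv_ne_zero u3)⟩
  rw [← inv_pow, inv_inv]
  exact pow_mem u1 _

end Fermat.Agent.S26.V
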