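/-
S26 / block V, node V7 (Mathlib only) : norms of elements which are units in all extensions of a
valuation ring.  (proofs: helper106, task 3487)
-/
import Mathlib

set_option autoImplicit false

universe u

namespace Fermat.Agent.S26.V

open Polynomial IsLocalRing in
/-- **V7a.** `u` lies in every valuation subring of `F'` lying over `O₀` ⟹ `u` is integral over
`O₀`. -/
theorem isIntegral_of_forall_mem {F F' : Type u} [Field F] [Field F'] [Algebra F F']
    (O₀ : ValuationSubring F) (u : F')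
    (hu : ∀ O : ValuationSubring F', O.comap (algebraMap F F') = O₀ → u ∈ O) :
    IsIntegral O₀ u := by
  obtain rfl | hu0 := eq_or_ne u 0
  · exact isIntegral_zero
  let _ : Invertible u⁻¹ := invertibleOfNonzero (inv_ne_zero hu0)
  have hinv : ⅟(u⁻¹) = u := by rw [invOf_eq_inv, inv_inv]
  let B := Algebra.adjoin O₀ {u⁻¹}
  let xinv : B.toSubring := ⟨u⁻¹, Algebra.subset_adjoin rfl⟩
  by_cases htop : (maximalIdeal O₀).map (algebraMap O₀ B) ⊔ .span {xinv} = ⊤
  · obtain ⟨p, hp, hpx⟩ := Algebra.exists_aeval_invOf_eq_zero_of_idealMap_adjoin_sup_span_eq_top _ _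
      (maximalIdeal.isMaximal O₀).ne_top htop
    rw [hinv] at hpx
    have H : IsUnit p.leadingCoeff := of_not_not fun h ↦ by
      have h1 : p.leadingCoeff ∈ maximalIdeal O₀ := (mem_maximalIdeal _).2 h
      have h2 := sub_mem h1 hp
      rw [sub_sub_cancel] at h2
      exact (Ideal.ne_top_iff_one _).1 (maximalIdeal.isMaximal O₀).ne_top h2
    refine ⟨C H.unit⁻¹.1 * p, ?_, ?_⟩
    · simp [Polynomial.Monic]
    · rw [← aeval_def, map_mul, hpx, mul_zero]
  · exfalso
    obtain ⟨V, hV⟩ := Ideal.image_subset_nonunits_valuationSubring (A := B.toSubring) _ htop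
    have huV : u ∉ V := by
      have h1 : u⁻¹ ∈ V.nonunits :=
        hV.2 ⟨xinv, Ideal.mem_sup_right (Ideal.subset_span rfl), rfl⟩
      exact (V.inv_mem_nonunits_iff.mp h1).resolve_left hu0
    apply huV
    apply hu
    ext x
    rw [ValuationSubring.mem_comap]
    constructor
    · intro hx
      by_contra hxO
      have hx0 : x ≠ 0 := fun h => hxO (h ▸ zero_mem _)
      have hxi : x⁻¹ ∈ O₀ := (O₀.mem_or_inv_mem x).resolve_left hxO
      have hnu : (⟨x⁻¹, hxi⟩ : O₀) ∈ maximalIdeal O₀ := by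
        rw [mem_maximalIdeal, mem_nonunits_iff]
        intro hun
        obtain ⟨w, hw⟩ := hun
        apply hxO
        have h1 : ((w⁻¹ : O₀ˣ) : O₀).1 * x⁻¹ = 1 := by
          have h2 := congrArg Subtype.val (Units.inv_mul w)
          rw [hw] at h2
          exact h2
        have h3 : x = ((w⁻¹ : O₀ˣ) : O₀).1 := by
          field_simp at h1
          exact h1.symm
        rw [h3]
        exact Subtype.mem _
      have h4 : algebraMap F F' x⁻¹ ∈ V.nonunits :=
        hV.2 ⟨algebraMap O₀ B ⟨x⁻¹, hxi⟩,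
          Ideal.mem_sup_left (Ideal.mem_map_of_mem _ hnu), rfl⟩
      rw [map_inv₀] at h4
      exact (V.inv_mem_nonunits_iff.mp h4).resolve_left
        (fun h => hx0 ((map_eq_zero _).1 h)) hx
    · intro hx
      exact hV.1 (B.algebraMap_mem ⟨x, hx⟩)

/-- **V7.** `F'/F` finite, `u ≠ 0` a unit in every valuation subring of `F'` lying over `O₀`
⟹ the norm of `u` is a unit of `O₀`. -/
theorem norm_mem_and_inv_mem {F F' : Type u} [Field F] [Field F'] [Algebra F F']
    [FiniteDimensional F F'] (O₀ : ValuationSubring F) (u : F')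
    (hu : ∀ O : ValuationSubring F', O.comap (algebraMap F F') = O₀ → u ∈ O ∧ u⁻¹ ∈ O) :
    Algebra.norm F u ∈ O₀ ∧ (Algebra.norm F u)⁻¹ ∈ O₀ := by
  have key : ∀ v : F', IsIntegral O₀ v → Algebra.norm F v ∈ O₀ := by
    intro v hv
    have h1 : IsIntegral O₀ (Algebra.norm F v) := Algebra.isIntegral_norm F hv
    obtain ⟨y, hy⟩ := IsIntegrallyClosed.isIntegral_iff.1 h1
    rw [← hy]
    exact y.2
  refine ⟨key u (isIntegral_of_forall_mem O₀ u fun O hO => (hu O hO).1), ?_⟩
  rw [← Algebra.norm_inv]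
  exact key u⁻¹ (isIntegral_of_forall_mem O₀ u⁻¹ fun O hO => (hu O hO).2)

end Fermat.Agent.S26.V
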