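/-
S26 / block V, node V8 : descent of the square relation by the norm.
-/
import Fermat.Agent.S26.V.Sys
import Fermat.Agent.S26.V.Centre
import Fermat.Agent.S26.V.Norm
import Fermat.Agent.S26.P.Const

set_option autoImplicit false

universe u

open CategoryTheory CategoryTheory.Limits AlgebraicGeometry NeronModelInfra GoodReductionJacobian

namespace Fermat.Agent.S26.V

private theorem ga_toFF_ne {T : Scheme.{u}} [IsIntegral T] (E : ECD T) (x : T) :
    toFF x (E.θ x) ≠ 0 := E.toCD.ne x

/-- **V8.** -/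
theorem exists_isGa {K : Type u} [Field K] {A : Scheme.{u}} (f : A ⟶ SpK K) [IsSeparated f]
    (L : RelativeGroupLaw K f) [IsIntegral A] (X : CoverData K f L) (D Da Dma : ECD A)
    (h : ∃ h : X.X.functionField, h ≠ 0 ∧
      ∀ x' : X.X, IsUnitAt x' (h * (sθ X Da x' * sθ X Dma x') / sθ X D x' ^ 2)) :
    ∃ g : A.functionField, IsGa (f := f) (cdeg X) D Da Dma g := by
  obtain ⟨h0, hh0, hU⟩ := h
  let _ := X.σ.toAlgebra
  have : FiniteDimensional A.functionField X.X.functionField := X.finite
  have hN0 : Algebra.norm A.functionField h0 ≠ 0 := Algebra.norm_ne_zero_iff.2 hh0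
  refine ⟨(Algebra.norm A.functionField h0)⁻¹, inv_ne_zero hN0, ?_⟩
  intro O hO x hx
  have key : ∀ O' : ValuationSubring X.X.functionField,
      O'.comap (algebraMap A.functionField X.X.functionField) = O →
      (h0 * algebraMap A.functionField X.X.functionField
        (toFF x (Da.θ x) * toFF x (Dma.θ x) / toFF x (D.θ x) ^ 2)) ∈ O' ∧
      (h0 * algebraMap A.functionField X.X.functionField
        (toFF x (Da.θ x) * toFF x (Dma.θ x) / toFF x (D.θ x) ^ 2))⁻¹ ∈ O' := by
    intro O' hO'
    have hc : ∀ a : K, constFF K X.x a ∈ O' := by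
      intro a
      rw [← P.isFnMap_constFF' X.x f X.s.1 X.s.2 X.σ X.isFn a]
      have h1 : constFF K f a ∈ O'.comap (algebraMap A.functionField X.X.functionField) := by
        rw [hO']
        exact hO a
      exact h1
    obtain ⟨x'', hx''⟩ := exists_dominates X.x O' hc
    have h1 := dominates_comap X.s.1 X.σ X.isFn O' x'' hx''
    have h2 : O'.comap X.σ = O := hO'
    rw [h2] at h1
    obtain rfl : X.s.1 x'' = x := dominates_unique f O _ _ h1 hx
    have h4 := hx''.isUnitAt (hU x'')
    have e : h0 * (sθ X Da x'' * sθ X Dma x'') / sθ X D x'' ^ 2 =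
        h0 * algebraMap A.functionField X.X.functionField
          (toFF (X.s.1 x'') (Da.θ (X.s.1 x'')) * toFF (X.s.1 x'') (Dma.θ (X.s.1 x'')) /
            toFF (X.s.1 x'') (D.θ (X.s.1 x'')) ^ 2) := by
      rw [map_div₀, map_mul, map_pow, mul_div_assoc]
      rfl
    rw [e] at h4
    exact ⟨h4.1, h4.2.1⟩
  obtain ⟨n1, n2⟩ := norm_mem_and_inv_mem O _ key
  rw [map_mul, Algebra.norm_algebraMap] at n1 n2
  have hd : Module.finrank A.functionField X.X.functionField = cdeg X := rfl
  rw [hd] at n1 n2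
  have ha := ga_toFF_ne Da x
  have hb := ga_toFF_ne Dma x
  have hc := ga_toFF_ne D x
  have e : (Algebra.norm A.functionField h0)⁻¹ * toFF x (D.θ x) ^ (2 * cdeg X) /
      (toFF x (Da.θ x) * toFF x (Dma.θ x)) ^ cdeg X =
      (Algebra.norm A.functionField h0 *
        (toFF x (Da.θ x) * toFF x (Dma.θ x) / toFF x (D.θ x) ^ 2) ^ cdeg X)⁻¹ := by
    rw [pow_mul, div_pow, mul_inv, inv_div, mul_div_assoc]
  rw [e]
  refine ⟨n2, by rw [inv_inv]; exact n1, inv_ne_zero (mul_ne_zero hN0 (pow_ne_zero _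
    (div_ne_zero (mul_ne_zero ha hb) (pow_ne_zero _ hc))))⟩

end Fermat.Agent.S26.V
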