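/-
S26 / block V, node V10 : the valuatively base point free linear system on `A`.
-/
import Fermat.Agent.S26.V.Sys

set_option autoImplicit false

universe u

open CategoryTheory CategoryTheory.Limits AlgebraicGeometry NeronModelInfra GoodReductionJacobian

namespace Fermat.Agent.S26.V

/-- **V10.** `d ≥ 1`, `r j ∈ L(D)`, `g a` valuative generators off `D ± a`, and every point is off
`D ± a` for some `a ∈ S`.  Then `V := span ({g a} ∪ {1} ∪ {r j})` is valuatively generated by
`θ_x^(-2d)`. -/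
theorem isValGen_span {K : Type u} [Field K] {A : Scheme.{u}} (f : A ⟶ SpK K) [IsIntegral A]
    (d : ℕ) (hd : 0 < d) (D : ECD A) {N : ℕ} (r : Fin N → A.functionField)
    (hr : ∀ (x : A) (j : Fin N), IsRegAt x (r j * toFF x (D.θ x)))
    {ι : Type u} (S : Finset ι) (Da Dma : ι → ECD A) (g : ι → A.functionField)
    (hg : ∀ a ∈ S, IsGa (f := f) d D (Da a) (Dma a) (g a))
    (hS : ∀ x : A, ∃ a ∈ S, IsUnit ((Da a).θ x) ∧ IsUnit ((Dma a).θ x))
    (O : ValuationSubring A.functionField) (hO : ∀ c : K, constFF K f c ∈ O) (x : A)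
    (hx : Dominates O x) :
    letI := ffAlgebra K f
    G.IsValGen O
      (Submodule.span K ((g '' (S : Set ι)) ∪ {1} ∪ Set.range r) : Set A.functionField)
      (toFF x (D.θ x) ^ (2 * d))⁻¹ := by
  letI := ffAlgebra K f
  have hinj : Function.Injective (toFF x) :=
    IsFractionRing.injective (A.presheaf.stalk x) A.functionField
  have hne : ∀ E : ECD A, toFF x (E.θ x) ≠ 0 := fun E =>
    (map_ne_zero_iff _ hinj).2 (E.ne x)
  have hθ : toFF x (D.θ x) ≠ 0 := hne D
  have hθO : toFF x (D.θ x) ∈ O := hx.1 _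
  -- the key identity for the generators `g a`
  have hkey : ∀ a ∈ S, ∃ u : A.functionField, G.IsValUnit O u ∧
      g a * toFF x (D.θ x) ^ (2 * d) =
        u * (toFF x ((Da a).θ x) * toFF x ((Dma a).θ x)) ^ d := by
    intro a ha
    refine ⟨_, (hg a ha).2 O hO x hx, ?_⟩
    rw [div_mul_cancel₀]
    exact pow_ne_zero _ (mul_ne_zero (hne _) (hne _))
  refine ⟨inv_ne_zero (pow_ne_zero _ hθ), ?_, ?_⟩
  · intro w hw
    rw [div_inv_eq_mul]
    have hw' : w ∈ Submodule.span K ((g '' (S : Set ι)) ∪ {1} ∪ Set.range r) := hw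
    clear hw
    induction hw' using Submodule.span_induction with
    | mem w hw =>
        rcases hw with (⟨a, ha, rfl⟩ | rfl) | ⟨j, rfl⟩
        · obtain ⟨u, hu, he⟩ := hkey a ha
          rw [he]
          exact mul_mem hu.1 (pow_mem (mul_mem (hx.1 _) (hx.1 _)) _)
        · rw [one_mul]
          exact pow_mem hθO _
        · obtain ⟨b, hb⟩ := hr x j
          have h2 : 2 * d = (2 * d - 1) + 1 := by omega
          rw [h2, pow_succ', ← mul_assoc, ← hb]
          exact mul_mem (hx.1 _) (pow_mem hθO _)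
    | zero => rw [zero_mul]; exact zero_mem _
    | add v w _ _ hv hw => rw [add_mul]; exact add_mem hv hw
    | smul c w _ hw =>
        rw [Algebra.smul_def, mul_assoc]
        exact mul_mem (hO c) hw
  · obtain ⟨a, ha, hua, huma⟩ := hS x
    have hunit : ∀ b : A.presheaf.stalk x, IsUnit b → (toFF x b)⁻¹ ∈ O := by
      rintro _ ⟨b, rfl⟩
      have h : toFF x (b⁻¹ : (A.presheaf.stalk x)ˣ) * toFF x (b : A.presheaf.stalk x) = 1 := by
        rw [← map_mul, Units.inv_mul, map_one]
      rw [← eq_inv_of_mul_eq_one_left h]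
      exact hx.1 _
    refine ⟨g a, Submodule.subset_span (Or.inl (Or.inl ⟨a, ha, rfl⟩)), (hg a ha).1, ?_⟩
    obtain ⟨u, hu, he⟩ := hkey a ha
    have h1 : (toFF x (D.θ x) ^ (2 * d))⁻¹ / g a =
        u⁻¹ * ((toFF x ((Da a).θ x))⁻¹ * (toFF x ((Dma a).θ x))⁻¹) ^ d := by
      rw [div_eq_mul_inv, ← mul_inv, mul_comm, he, mul_inv, ← inv_pow, mul_inv]
    rw [h1]
    exact mul_mem hu.2.1 (pow_mem (mul_mem (hunit _ hua) (hunit _ huma)) _)

end Fermat.Agent.S26.V
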