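/-
S26 / block V, nodes V1-V4 : CONTRACT of the Picard part.
Assembly (helper171) from the leaves `V/Pic/{Formal,Data,Rel,Cl,Extract}.lean`.
-/
import Fermat.Agent.S26.V.Sys
import Fermat.Agent.S26.V.Pic.Extract

set_option autoImplicit false

universe u

open CategoryTheory CategoryTheory.Limits AlgebraicGeometry NeronModelInfra GoodReductionJacobian

namespace Fermat.Agent.S26.V

/-- **V1-V4.** There is an effective Cartier datum `D` on `A` with `r j ∈ L(D)` satisfying the
linear and the square relation on `X`. -/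
theorem exists_linSq {K : Type u} [Field K] [IsAlgClosed K] {A : Scheme.{u}} (f : A ⟶ SpK K)
    (L : RelativeGroupLaw K f) (hc : L.IsCommutative) (hA : AbelianSchemePropertyBundle K f)
    [IsIntegral A] (PT : PicTheory K f L) (X : CoverData K f L) (PD : PolarData K f)
    (n : ℕ) (hn : 0 < n) (I : IsogData K f L n) :
    ∃ D : ECD A, (∀ (x : A) (j : Fin PD.N), IsRegAt x (PD.r j * toFF x (D.θ x))) ∧
      LinProp X n D ∧ SqProp X D := by
  obtain ⟨ι, hι⟩ := exists_isFnMap_of_comp_eq_id (neg L) (neg L) (neg_neg L) (neg_neg L)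
  have hsym := Pic.pull_neg_cl_symD PT.toPicBase L PD.D ι hι
  refine ⟨Pic.symD L PD.D ι hι, fun x j => ?_, fun k Dk hDk => ?_, fun a Da Dma hDa hDma => ?_⟩
  · obtain ⟨b, hb⟩ := PD.reg x j
    refine ⟨b * ((neg L).stalkMap x).hom (PD.D.θ (neg L x)), ?_⟩
    rw [map_mul, hb, mul_assoc, ← map_mul]
    rfl
  · have h := Pic.exists_lin PT hc X _ hsym (n ^ k) Dk hDk
    rwa [← pow_mul, mul_comm k 2] at h
  · exact Pic.exists_square PT hc X _ a Da Dma hDa hDma

end Fermat.Agent.S26.V
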