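/-
S26 / block V : CONTRACT (from the cube to the valuative linear system).
-/
import Fermat.Agent.S26.V.Pic
import Fermat.Agent.S26.V.Grp
import Fermat.Agent.S26.V.Ga
import Fermat.Agent.S26.V.Cover
import Fermat.Agent.S26.V.Gen
import Fermat.Agent.S26.V.Final

set_option autoImplicit false

universe u

open CategoryTheory CategoryTheory.Limits AlgebraicGeometry NeronModelInfra GoodReductionJacobian

namespace Fermat.Agent.S26.V

/-- the degree of the cover is positive -/
theorem cdeg_pos {K : Type u} [Field K] {A : Scheme.{u}} {f : A ⟶ SpK K}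
    {L : RelativeGroupLaw K f} [IsIntegral A] (X : CoverData K f L) : 0 < cdeg X :=
  Pow_cdeg_pos X

/-- **Contract V.** -/
theorem exists_system {K : Type u} [Field K] [IsAlgClosed K] {A : Scheme.{u}} (f : A ⟶ SpK K)
    (L : RelativeGroupLaw K f) (hc : L.IsCommutative) (hA : AbelianSchemePropertyBundle K f)
    [IsIntegral A] (PT : PicTheory K f L) (X : CoverData K f L) (PD : PolarData K f)
    (n : ℕ) (hn : 0 < n) (I : IsogData K f L n) :
    letI := ffAlgebra K f
    letI := ffAlgebra K X.x
    ∃ V : Submodule K A.functionField, FiniteDimensional K V ∧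
      IntermediateField.adjoin K (G.ratios V) = ⊤ ∧
      ∀ k : ℕ, ∃ h : X.X.functionField, h ≠ 0 ∧
        ∀ O : ValuationSubring X.X.functionField, G.ContainsConst K O →
        ∃ ϑ ϑ' : X.X.functionField, G.IsValGen O (X.σ '' (V : Set A.functionField)) ϑ ∧
          G.IsValGen O ((fun v => X.σ (I.ψ^[k] v)) '' (V : Set A.functionField)) ϑ' ∧
          G.IsValUnit O (ϑ' / (h * ϑ ^ (n ^ (2 * k)))) := by
  letI := ffAlgebra K f
  letI := ffAlgebra K X.x
  haveI : IsProper f := hA.proper
  obtain ⟨D, hreg, hlin, hsq⟩ := exists_linSq f L hc hA PT X PD n hn I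
  obtain ⟨S, hS⟩ := exists_finset_isUnit f L hc hA D
  have hτ : ∀ a : KPt f, ∃ Da : ECD A, ECD.IsPull (trans L a) D Da := fun a => by
    obtain ⟨τ, hτ⟩ := exists_isFnMap_of_comp_eq_id (trans L a) _ (trans_trans_inv L a)
      (trans_inv_trans L a)
    exact exists_isPull _ τ hτ D
  choose Da hDa using hτ
  let Dma : KPt f → ECD A := fun a => Da (L.inv (𝟙 (SpK K)) a)
  have hg : ∀ a : KPt f, ∃ g : A.functionField, IsGa (f := f) (cdeg X) D (Da a) (Dma a) g :=
    fun a => exists_isGa f L X D (Da a) (Dma a) (hsq a (Da a) (Dma a) (hDa a) (hDa _))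
  choose g hg using hg
  let V : Submodule K A.functionField :=
    Submodule.span K ((g '' (S : Set (KPt f))) ∪ {1} ∪ Set.range PD.r)
  have hunit : ∀ x : A, ∃ a ∈ S, IsUnit ((Da a).θ x) ∧ IsUnit ((Dma a).θ x) := fun x => by
    obtain ⟨a, haS, h1, h2⟩ := hS x
    refine ⟨a, haS, ?_, ?_⟩
    · rw [hDa a x]; exact h1.map _
    · rw [show (Dma a).θ x = _ from hDa _ x]; exact h2.map _
  refine ⟨V, ?_, ?_, fun k => ?_⟩
  · exact FiniteDimensional.span_of_finite K
      (((S.finite_toSet.image g).union (Set.finite_singleton 1)).union (Set.finite_range _))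
  · rw [eq_top_iff, ← PD.gen]
    apply IntermediateField.adjoin.mono
    rintro _ ⟨j, rfl⟩
    refine ⟨PD.r j, Submodule.subset_span (Or.inr ⟨j, rfl⟩), 1,
      Submodule.subset_span (Or.inl (Or.inr rfl)), one_ne_zero, by simp⟩
  · exact final f L hc X n I (cdeg X) D hlin (V : Set A.functionField)
      (fun O hO x hx => isValGen_span f (cdeg X) (cdeg_pos X) D PD.r hreg S Da Dma g
        (fun a _ => hg a) hunit O hO x hx) k

end Fermat.Agent.S26.V
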